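import Mathlib

/-!
# Row LT (helper963, OFF-MAIN asset): multiplicity one in MODULE form from a MATCH statement

Abstract core, Mathlib only.

`H` a complex inner product space (not necessarily complete), `ρ` a unitary representation of a
group `G` on `H`, `V` a finite-dimensional subspace, `P` the orthogonal projection onto `V`.

MATCH hypothesis (shape of `T2.H941.MatchC`): for any two non-zero vectors `e, e₂ ∈ V` the spans
of the translates `ρ(g) e` and `ρ(g) e₂` have a non-zero vector in common.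

CONCLUSION (`cyclic_of_match963`): every non-zero `e ∈ V` is CYCLIC for the compressions
`P ρ(g)`: the vectors `P (ρ(g) e)` span `V`.  (If `V` is the space of `U`-invariant vectors of a
joint eigenspace and the translations are by elements commuting with the eigen-operators, the
compressions `P ρ(g) |_V` are the operators of the Hecke algebra of `U`, and the statement says
that `V` is a SIMPLE module of that algebra.)

Proof.  Let `M = span {P (ρ(g) e)} ⊆ V`.  If `M ≠ V` there is `e₂ ∈ V`, `e₂ ≠ 0`, orthogonal to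
`M`.  Then `⟪e₂, ρ(h) e⟫ = ⟪e₂, P (ρ(h) e)⟫ = 0` for all `h`, so by unitarity
`⟪ρ(g') e₂, ρ(g) e⟫ = ⟪e₂, ρ(g'⁻¹ g) e⟫ = 0`: the two spans of translates are orthogonal, and a
common vector is orthogonal to itself.
-/

set_option autoImplicit false

open scoped InnerProductSpace

namespace Fermat.Agent.LT.H963

variable {H : Type*} [NormedAddCommGroup H] [InnerProductSpace ℂ H]
variable {G : Type*} [Group G]

/-- The span of the translates of `e`. -/
def orbitSpan963 (ρ : G →* (H ≃ₗᵢ[ℂ] H)) (e : H) : Submodule ℂ H :=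
  Submodule.span ℂ (Set.range fun g : G => ρ g e)

/-- Unitarity: `⟪ρ(g') x, ρ(g) y⟫ = ⟪x, ρ(g'⁻¹ g) y⟫`. -/
theorem inner_translate963 (ρ : G →* (H ≃ₗᵢ[ℂ] H)) (g g' : G) (x y : H) :
    ⟪ρ g' x, ρ g y⟫_ℂ = ⟪x, ρ (g'⁻¹ * g) y⟫_ℂ := by
  have h : ρ g y = ρ g' (ρ (g'⁻¹ * g) y) := by
    have : ρ g = ρ g' * ρ (g'⁻¹ * g) := by rw [← map_mul, mul_inv_cancel_left]
    rw [this, LinearIsometryEquiv.coe_mul, Function.comp_apply]
  rw [h, LinearIsometryEquiv.inner_map_map]

/-- If `e₂` is orthogonal to every translate of `e`, the spans of the translates of `e₂` and of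
`e` are orthogonal. -/
theorem orbitSpan_orthogonal963 (ρ : G →* (H ≃ₗᵢ[ℂ] H)) (e e₂ : H)
    (h : ∀ g : G, ⟪e₂, ρ g e⟫_ℂ = 0) :
    ∀ x ∈ orbitSpan963 ρ e₂, ∀ y ∈ orbitSpan963 ρ e, ⟪x, y⟫_ℂ = 0 := by
  intro x hx y hy
  refine Submodule.span_induction (p := fun x _ => ⟪x, y⟫_ℂ = 0) ?_ ?_ ?_ ?_ hx
  · rintro _ ⟨g', rfl⟩
    refine Submodule.span_induction (p := fun y _ => ⟪ρ g' e₂, y⟫_ℂ = 0) ?_ ?_ ?_ ?_ hy
    · rintro _ ⟨g, rfl⟩
      show ⟪ρ g' e₂, ρ g e⟫_ℂ = 0
      rw [inner_translate963]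
      exact h _
    · exact inner_zero_right _
    · intro a b _ _ ha hb
      rw [inner_add_right, ha, hb, add_zero]
    · intro c a _ ha
      rw [inner_smul_right, ha, mul_zero]
  · exact inner_zero_left _
  · intro a b _ _ ha hb
    rw [inner_add_left, ha, hb, add_zero]
  · intro c a _ ha
    rw [inner_smul_left, ha, mul_zero]

/-- **Multiplicity one in module form, abstract core.**  Under the MATCH hypothesis every
non-zero vector of the finite-dimensional subspace `V` is cyclic for the compressions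
`P ρ(g)`. -/
theorem cyclic_of_match963 (ρ : G →* (H ≃ₗᵢ[ℂ] H)) (V : Submodule ℂ H)
    [FiniteDimensional ℂ V]
    (hmatch : ∀ e ∈ V, ∀ e₂ ∈ V, e ≠ 0 → e₂ ≠ 0 →
      ∃ x : H, x ∈ orbitSpan963 ρ e ∧ x ∈ orbitSpan963 ρ e₂ ∧ x ≠ 0)
    (e : H) (he : e ∈ V) (he0 : e ≠ 0) :
    Submodule.span ℂ (Set.range fun g : G => V.starProjection (ρ g e)) = V := by
  classical
  set M : Submodule ℂ H :=
    Submodule.span ℂ (Set.range fun g : G => V.starProjection (ρ g e)) with hM
  have hMV : M ≤ V := by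
    rw [hM, Submodule.span_le]
    rintro _ ⟨g, rfl⟩
    exact Submodule.starProjection_apply_mem V _
  by_contra hne
  have hlt : M < V := lt_of_le_of_ne hMV hne
  -- a non-zero vector of `V` orthogonal to `M`
  have hfd : FiniteDimensional ℂ M := Submodule.finiteDimensional_of_le hMV
  obtain ⟨e₂, he₂V, he₂0, he₂M⟩ : ∃ e₂ ∈ V, e₂ ≠ 0 ∧ ∀ m ∈ M, ⟪e₂, m⟫_ℂ = 0 := by
    obtain ⟨v, hvV, hvM⟩ := SetLike.exists_of_lt hlt
    refine ⟨v - M.starProjection v, ?_, ?_, ?_⟩
    · exact V.sub_mem hvV (hMV (Submodule.starProjection_apply_mem M v))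
    · intro h0
      apply hvM
      have : v = M.starProjection v := sub_eq_zero.mp h0
      rw [this]
      exact Submodule.starProjection_apply_mem M v
    · intro m hm
      exact Submodule.starProjection_inner_eq_zero v m hm
  -- `e₂` is orthogonal to all translates of `e`
  have horth : ∀ g : G, ⟪e₂, ρ g e⟫_ℂ = 0 := by
    intro g
    have h0 : ⟪ρ g e - V.starProjection (ρ g e), e₂⟫_ℂ = 0 :=
      Submodule.starProjection_inner_eq_zero (ρ g e) e₂ he₂V
    have h1 : ⟪e₂, ρ g e - V.starProjection (ρ g e)⟫_ℂ = 0 := inner_eq_zero_symm.mp h0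
    rw [inner_sub_right, sub_eq_zero] at h1
    rw [h1]
    exact he₂M _ (Submodule.subset_span ⟨g, rfl⟩)
  obtain ⟨x, hx1, hx2, hx0⟩ := hmatch e he e₂ he₂V he0 he₂0
  have hxx : ⟪x, x⟫_ℂ = 0 := orbitSpan_orthogonal963 ρ e e₂ horth x hx2 x hx1
  exact hx0 (inner_self_eq_zero.mp hxx)

end Fermat.Agent.LT.H963
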