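import Fermat.Agent.LT.T2.H941.SmoUncond
import Fermat.Agent.LT.T2.H886.CuspAlg
import Fermat.Agent.LT.H963.CyclicAbs

/-!
# Row LT (helper963, OFF-MAIN): MULTIPLICITY ONE IN MODULE FORM from `T2.H941.MatchC`

Vocabulary: A0 (helper556), `T2/Spec` (helper130), `T2/H941/SmoSpec` (helper941), byte-identical
copies.  Abstract core: `LT/H963/CyclicAbs.lean` (Mathlib only).

## Statement

`CyclicWeakC963 K`: for a frame `F`, an eigensystem `π` and two forms `φ, φ'` for `π` (same level,
same eigenvalues away from the level) there is a FINITE combination `Φ = ∑_{g ∈ s} c(g) R(g) φ` of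
right translates of `φ` with

    ⟨Φ, ψ⟩ = ⟨φ', ψ⟩      for every form `ψ` for `π`,

i.e. `φ'` is the orthogonal projection of `Φ` onto the space `V(π)` of the forms for `π`:
every non-zero vector of `V(π)` is CYCLIC for the compressions `P R(g)` (for translations which
commute with the eigen-conditions these are the operators of the Hecke algebra of level
`U(π.level)`: `V(π)` is a SIMPLE Hecke module, hence, by Burnside, every endomorphism of `V(π)` --
e.g. the inverse of the action of a field automorphism -- is such an operator).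

## Proof

`cyclicWeak_of963 : (K totally complex) → MatchC K → PairC K → FormSpaceC963 K → CyclicWeakC963 K`.
The Petersson pairing of `F` makes the class `IsAut0` a pre-Hilbert space on which the right
translations are unitary (`PairC`); `V(π)` is a finite-dimensional subspace (`FormSpaceC963`);
`MatchC` says that the spans of the translates of two non-zero vectors of `V(π)` meet;
`cyclic_of_match963`.

`FormSpaceC963` (the forms for `π`, with `0`, are a finite-dimensional vector space) is the only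
input which is not yet closed in the towers: closure under linear combinations is
`T2.H886.CuspAlg` + linearity of the mean value property; finite dimension is the
Hilbert--Schmidt bound of T2.
-/

set_option autoImplicit false
set_option linter.style.haveILetI false

open IsDedekindDomain NumberField MeasureTheory AutomorphicForm
open Fermat.Agent.LT.H556.A0
open scoped InnerProductSpace ComplexConjugate

noncomputable section

namespace Fermat.Agent.LT.H963

open Fermat.Agent.LT.T2.H941

variable {K : Type} [Field K] [NumberField K]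

attribute [local instance] Fermat.Agent.LT.T2.borelG

-- In the import closure `Inner ℂ E` is found first through `CStarModule.toInner`, which is not
-- reducibly the `InnerProductSpace.toInner` of the lemmas of Mathlib.
attribute [-instance] CStarModule.toInner

/-! ## 1. Props -/

variable (K)

/-- **FORM-SPACE**: the forms for `π`, together with `0`, are a finite-dimensional space. -/
def FormSpaceC963 : Prop :=
  ∀ π : HeckeEigensystem K ℂ, ∃ W : Submodule ℂ (G K → ℂ), Module.Finite ℂ W ∧
    ∀ f : G K → ℂ, f ∈ W ↔ (f = 0 ∨ IsSph0CuspFormFor π f)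

/-- **MULTIPLICITY ONE IN MODULE FORM (weak form).**  See the header. -/
def CyclicWeakC963 : Prop :=
  ∀ (F : T2.Frame K) (π : HeckeEigensystem K ℂ) (φ φ' : G K → ℂ),
    IsSph0CuspFormFor π φ → IsSph0CuspFormFor π φ' →
    ∀ v₀ : HeightOneSpectrum (𝓞 K), ¬ v₀.asIdeal ∣ π.level →
      ∃ (s : Finset (G K)) (c : G K → ℂ),
        ∀ ψ : G K → ℂ, IsSph0CuspFormFor π ψ →
          T2.pair F (fun x => ∑ g ∈ s, c g * φ (x * g)) ψ = T2.pair F φ' ψ

variable {K}

/-! ## 2. The pre-Hilbert space of the class `IsAut0` -/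

/-- The class `IsAut0` as a submodule of the functions on `GL₂(𝔸_K)`. -/
def aut0Sub963 (K : Type) [Field K] [NumberField K] : Submodule ℂ (G K → ℂ) where
  carrier := {f | IsAut0 f}
  zero_mem' := isAut0_zero
  add_mem' := fun ha hb => isAut0_add ha hb
  smul_mem' := fun c _ hf => isAut0_smul c hf

theorem mem_aut0Sub963 {f : G K → ℂ} : f ∈ aut0Sub963 K ↔ IsAut0 f := Iff.rfl

/-- The inner product core: `⟪x, y⟫ = ⟨y, x⟩_F` (Mathlib's inner product is conjugate linear in
the FIRST variable, the Petersson pairing in the SECOND). -/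
@[reducible] def core963 (F : T2.Frame K) (hP : PairC K) :
    InnerProductSpace.Core ℂ (aut0Sub963 K) where
  inner x y := T2.pair F y.1 x.1
  conj_inner_symm x y := (pair_conj F x.1 y.1).symm
  re_inner_nonneg x := T2.H886.nsq_nonneg886 F x.1
  add_left x y z := by
    show T2.pair F z.1 (fun g => x.1 g + y.1 g) = T2.pair F z.1 x.1 + T2.pair F z.1 y.1
    rw [pair_conj F (fun g => x.1 g + y.1 g) z.1, (hP F).1 x.1 y.1 z.1 x.2 y.2 z.2, map_add,
      ← pair_conj, ← pair_conj]
  smul_left x y r := by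
    show T2.pair F y.1 (fun g => r * x.1 g) = conj r * T2.pair F y.1 x.1
    exact pair_smul_right F r y.1 x.1
  definite x h := by
    have h0 := (hP F).2.1 x.1 x.2 h
    exact Subtype.ext (funext h0)


/-- The pre-Hilbert space: the class `IsAut0` with the Petersson pairing of the frame `F`. -/
def Sp963 (_F : T2.Frame K) (_hP : PairC K) : Type := aut0Sub963 K

section Space

variable (F : T2.Frame K) (hP : PairC K)

instance : NormedAddCommGroup (Sp963 F hP) :=
  @InnerProductSpace.Core.toNormedAddCommGroup ℂ (aut0Sub963 K) _ _ _ (core963 F hP)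

instance : InnerProductSpace ℂ (Sp963 F hP) :=
  @InnerProductSpace.ofCore ℂ (aut0Sub963 K) _ _ _ (core963 F hP).toCore

/-- The underlying function. -/
def Sp963.fn (x : Sp963 F hP) : G K → ℂ := (show aut0Sub963 K from x).1

theorem Sp963.isAut0 (x : Sp963 F hP) : IsAut0 (Sp963.fn F hP x) := (show aut0Sub963 K from x).2

/-- The vector of a function of the class. -/
def Sp963.mk {f : G K → ℂ} (hf : IsAut0 f) : Sp963 F hP := (⟨f, hf⟩ : aut0Sub963 K)

@[simp] theorem Sp963.fn_mk {f : G K → ℂ} (hf : IsAut0 f) :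
    Sp963.fn F hP (Sp963.mk F hP hf) = f := rfl

theorem Sp963.ext {x y : Sp963 F hP} (h : Sp963.fn F hP x = Sp963.fn F hP y) : x = y :=
  Subtype.ext h

theorem Sp963.inner_def (x y : Sp963 F hP) :
    ⟪x, y⟫_ℂ = T2.pair F (Sp963.fn F hP y) (Sp963.fn F hP x) := rfl

@[simp] theorem Sp963.fn_add (x y : Sp963 F hP) :
    Sp963.fn F hP (x + y) = fun g => Sp963.fn F hP x g + Sp963.fn F hP y g := rfl

@[simp] theorem Sp963.fn_smul (c : ℂ) (x : Sp963 F hP) :
    Sp963.fn F hP (c • x) = fun g => c * Sp963.fn F hP x g := rfl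

@[simp] theorem Sp963.fn_zero : Sp963.fn F hP (0 : Sp963 F hP) = fun _ => 0 := rfl

/-- The underlying function, as a linear map. -/
def Sp963.fnL : Sp963 F hP →ₗ[ℂ] (G K → ℂ) := (aut0Sub963 K).subtype

theorem Sp963.fnL_apply (x : Sp963 F hP) : Sp963.fnL F hP x = Sp963.fn F hP x := rfl

theorem Sp963.fn_sum {ι : Type} (s : Finset ι) (c : ι → ℂ) (y : ι → Sp963 F hP) :
    Sp963.fn F hP (∑ i ∈ s, c i • y i) = fun g => ∑ i ∈ s, c i * Sp963.fn F hP (y i) g := by
  rw [← Sp963.fnL_apply, map_sum]
  funext g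
  rw [Finset.sum_apply]
  refine Finset.sum_congr rfl fun i _ => ?_
  rw [map_smul]
  rfl

/-! ## 3. The unitary representation by right translations -/

/-- Right translation by `g` as a linear equivalence of the class `IsAut0`. -/
def rtEquiv963 (g : G K) : Sp963 F hP ≃ₗ[ℂ] Sp963 F hP where
  toFun x := Sp963.mk F hP (isAut0_rt g (Sp963.isAut0 F hP x))
  invFun x := Sp963.mk F hP (isAut0_rt g⁻¹ (Sp963.isAut0 F hP x))
  map_add' _ _ := rfl
  map_smul' _ _ := rfl
  left_inv x := by
    apply Sp963.ext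
    show rt g⁻¹ (rt g (Sp963.fn F hP x)) = Sp963.fn F hP x
    rw [rt_rt, inv_mul_cancel, rt_one]
  right_inv x := by
    apply Sp963.ext
    show rt g (rt g⁻¹ (Sp963.fn F hP x)) = Sp963.fn F hP x
    rw [rt_rt, mul_inv_cancel, rt_one]

/-- Right translation by `g` is unitary (`PairC`, third clause). -/
def rho963 (g : G K) : Sp963 F hP ≃ₗᵢ[ℂ] Sp963 F hP :=
  (rtEquiv963 F hP g).isometryOfInner fun x y =>
    (hP F).2.2 g (Sp963.fn F hP y) (Sp963.fn F hP x) (Sp963.isAut0 F hP y) (Sp963.isAut0 F hP x)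

theorem fn_rho963 (g : G K) (x : Sp963 F hP) :
    Sp963.fn F hP (rho963 F hP g x) = rt g (Sp963.fn F hP x) := rfl

/-- The representation. -/
def rhoHom963 : G K →* (Sp963 F hP ≃ₗᵢ[ℂ] Sp963 F hP) where
  toFun := rho963 F hP
  map_one' := by
    ext x
    apply Sp963.ext
    show rt 1 (Sp963.fn F hP x) = Sp963.fn F hP x
    exact rt_one _
  map_mul' g h := by
    ext x
    apply Sp963.ext
    show rt (g * h) (Sp963.fn F hP x) = rt g (rt h (Sp963.fn F hP x))
    rw [rt_rt]

theorem fn_rhoHom963 (g : G K) (x : Sp963 F hP) :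
    Sp963.fn F hP (rhoHom963 F hP g x) = rt g (Sp963.fn F hP x) := rfl

theorem isAut0_lin963 {n : ℕ} (c : Fin n → ℂ) (g : Fin n → G K) {f : G K → ℂ}
    (hf : IsAut0 f) : IsAut0 (lin c g f) :=
  isAut0_sum Finset.univ c (fun i => rt (g i) f) (fun i => isAut0_rt (g i) hf)

theorem mk_lin_mem_orbitSpan963 {n : ℕ} (c : Fin n → ℂ) (g : Fin n → G K) (x : Sp963 F hP) :
    Sp963.mk F hP (isAut0_lin963 c g (Sp963.isAut0 F hP x))
      ∈ orbitSpan963 (rhoHom963 F hP) x := by
  have h : Sp963.mk F hP (isAut0_lin963 c g (Sp963.isAut0 F hP x))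
      = ∑ i, c i • rhoHom963 F hP (g i) x := by
    apply Sp963.ext
    rw [Sp963.fn_sum]
    rfl
  rw [h]
  exact Submodule.sum_mem _ fun i _ =>
    Submodule.smul_mem _ _ (Submodule.subset_span ⟨g i, rfl⟩)

end Space

/-! ## 4. The theorem -/

/-- **MULTIPLICITY ONE IN MODULE FORM** (weak form) from `MatchC`, `PairC` and the
finite-dimensionality of the space of forms, for a totally complex field. -/
theorem cyclicWeak_of963 (hcx : ∀ w : InfinitePlace K, w.IsComplex) (hM : MatchC K)
    (hP : PairC K) (hV : FormSpaceC963 K) : CyclicWeakC963 K := by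
  classical
  intro F π φ φ' hφ hφ' v₀ hv₀
  obtain ⟨W, hWfin, hW⟩ := hV π
  have hA : ∀ f : G K → ℂ, IsSph0CuspFormFor π f → IsAut0 f := fun f hf => aut0_closed K π f hf
  let V : Submodule ℂ (Sp963 F hP) := W.comap (Sp963.fnL F hP)
  have hVmem : ∀ x : Sp963 F hP,
      x ∈ V ↔ (Sp963.fn F hP x = 0 ∨ IsSph0CuspFormFor π (Sp963.fn F hP x)) := fun x => hW _
  have hne0 : ∀ x : Sp963 F hP, x ≠ 0 → Sp963.fn F hP x ≠ 0 := fun x hx h =>
    hx (Sp963.ext F hP (h.trans (Sp963.fn_zero F hP).symm))
  haveI hWfin' : Module.Finite ℂ W := hWfin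
  have hVfd : FiniteDimensional ℂ V := by
    let j : V →ₗ[ℂ] W := (Sp963.fnL F hP).restrict (p := V) (q := W) (fun x hx => hx)
    have hj : Function.Injective j := by
      intro a b hab
      have h1 : ((j a : W) : G K → ℂ) = ((j b : W) : G K → ℂ) := by rw [hab]
      exact Subtype.ext (Sp963.ext F hP h1)
    exact FiniteDimensional.of_injective j hj
  haveI : FiniteDimensional ℂ V := hVfd
  have hmatch : ∀ e ∈ V, ∀ e₂ ∈ V, e ≠ 0 → e₂ ≠ 0 →
      ∃ x : Sp963 F hP, x ∈ orbitSpan963 (rhoHom963 F hP) e ∧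
        x ∈ orbitSpan963 (rhoHom963 F hP) e₂ ∧ x ≠ 0 := by
    intro e he e₂ he₂ he0 he₂0
    have hf : IsSph0CuspFormFor π (Sp963.fn F hP e) :=
      ((hVmem e).1 he).resolve_left (hne0 e he0)
    have hf₂ : IsSph0CuspFormFor π (Sp963.fn F hP e₂) :=
      ((hVmem e₂).1 he₂).resolve_left (hne0 e₂ he₂0)
    have hpar : SameParity (Sp963.fn F hP e) (Sp963.fn F hP e₂) := fun w hw =>
      absurd hw (InfinitePlace.not_isReal_iff_isComplex.mpr (hcx w))
    have hag : HeckeEigensystem.AgreesAwayFromFinite π π := ⟨∅, fun v _ => ⟨rfl, rfl⟩⟩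
    obtain ⟨n, n', c, g, c', g', -, -, heq, x0, hx0⟩ :=
      hM π π (Sp963.fn F hP e) (Sp963.fn F hP e₂) hf hf₂ hpar hag v₀ hv₀ hv₀
    refine ⟨Sp963.mk F hP (isAut0_lin963 c g (Sp963.isAut0 F hP e)),
      mk_lin_mem_orbitSpan963 F hP c g e, ?_, ?_⟩
    · have h : Sp963.mk F hP (isAut0_lin963 c g (Sp963.isAut0 F hP e))
          = Sp963.mk F hP (isAut0_lin963 c' g' (Sp963.isAut0 F hP e₂)) := Sp963.ext F hP heq
      rw [h]
      exact mk_lin_mem_orbitSpan963 F hP c' g' e₂
    · intro h0
      apply hx0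
      have h1 := congrArg (Sp963.fn F hP) h0
      exact congrFun h1 x0
  -- the vectors of `φ`, `φ'`
  set e : Sp963 F hP := Sp963.mk F hP (hA φ hφ) with he
  have heV : e ∈ V := (hVmem e).2 (Or.inr hφ)
  have he0 : e ≠ 0 := by
    obtain ⟨x, hx⟩ := hφ.ne_zero
    intro h
    exact hx (congrFun (congrArg (Sp963.fn F hP) h) x)
  have key := cyclic_of_match963 (rhoHom963 F hP) V hmatch e heV he0
  set e' : Sp963 F hP := Sp963.mk F hP (hA φ' hφ') with he'
  have he'V : e' ∈ V := (hVmem e').2 (Or.inr hφ')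
  have hspan : e' ∈ Submodule.span ℂ
      (Set.range fun g : G K => V.starProjection (rhoHom963 F hP g e)) := by
    rw [key]
    exact he'V
  obtain ⟨cf, hcf⟩ := Finsupp.mem_span_range_iff_exists_finsupp.mp hspan
  refine ⟨cf.support, cf, fun ψ hψ => ?_⟩
  set p : Sp963 F hP := Sp963.mk F hP (hA ψ hψ) with hp
  have hpV : p ∈ V := (hVmem p).2 (Or.inr hψ)
  have hproj : ∀ g : G K,
      ⟪p, rhoHom963 F hP g e⟫_ℂ = ⟪p, V.starProjection (rhoHom963 F hP g e)⟫_ℂ := by
    intro g
    have h0 := Submodule.starProjection_inner_eq_zero (K := V) (rhoHom963 F hP g e) p hpV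
    have h0' := inner_eq_zero_symm.mp h0
    rw [inner_sub_right, sub_eq_zero] at h0'
    exact h0'
  have h1 : ⟪p, ∑ g ∈ cf.support, cf g • rhoHom963 F hP g e⟫_ℂ = ⟪p, e'⟫_ℂ := by
    have hL := inner_sum (𝕜 := ℂ) cf.support (fun g => cf g • rhoHom963 F hP g e) p
    have hR := inner_sum (𝕜 := ℂ) cf.support
      (fun g => cf g • V.starProjection (rhoHom963 F hP g e)) p
    have hE : e' = ∑ g ∈ cf.support, cf g • V.starProjection (rhoHom963 F hP g e) := hcf.symm
    rw [hE]
    refine hL.trans (Eq.trans ?_ hR.symm)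
    refine Finset.sum_congr rfl fun g _ => ?_
    show ⟪p, cf g • rhoHom963 F hP g e⟫_ℂ = ⟪p, cf g • V.starProjection (rhoHom963 F hP g e)⟫_ℂ
    rw [inner_smul_right, inner_smul_right, hproj g]
  rw [Sp963.inner_def, Sp963.inner_def, Sp963.fn_sum] at h1
  exact h1

/-- The same with `MatchC` and `PairC` discharged by the closed station T2.10 (helper941). -/
theorem cyclicWeak_of_formSpace963 (hcx : ∀ w : InfinitePlace K, w.IsComplex)
    (hV : FormSpaceC963 K) : CyclicWeakC963 K :=
  cyclicWeak_of963 hcx (match_uncond_totCplx K hcx) (pair_uncond K) hV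

end Fermat.Agent.LT.H963
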