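import Fermat.Agent.LT.H963.CyclicAbs

/-!
# Row LT (helper963, OFF-MAIN): abstract core of SIMPLICITY (multiplicity one in module form)

Mathlib only.  `ρ` a unitary representation of a group `G` on a pre-Hilbert space `H`, `V` a
finite-dimensional subspace, `A ≤ V` a subspace, `e ∈ H`, `P` a set of elements of `G`.

* MATCH: for every non-zero `e₂ ∈ V` there are finite combinations `∑ cᵢ ρ(gᵢ) e = ∑ c'ⱼ ρ(g'ⱼ) e₂`,
  not zero, with `g'ⱼ⁻¹ gᵢ ∈ P`;
* COMPRESS: if `e₂ ∈ V` is orthogonal to `A` then `e₂` is orthogonal to `ρ(g) e` for `g ∈ P`.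

Then `A = V` (`simple_of_match963`): a vector of `V` orthogonal to `A` is orthogonal to the
translates of `e`, so the common vector of MATCH has norm `0`.
-/

set_option autoImplicit false

open scoped InnerProductSpace ComplexConjugate

namespace Fermat.Agent.LT.H963

variable {H : Type*} [NormedAddCommGroup H] [InnerProductSpace ℂ H]
variable {G : Type*} [Group G]

/-- The inner product of two finite combinations of translates. -/
theorem inner_comb963 (ρ : G →* (H ≃ₗᵢ[ℂ] H)) (e e₂ : H) {n n' : ℕ} (c : Fin n → ℂ)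
    (g : Fin n → G) (c' : Fin n' → ℂ) (g' : Fin n' → G)
    (h : ∀ i j, ⟪e₂, ρ ((g' j)⁻¹ * g i) e⟫_ℂ = 0) :
    ⟪∑ j, c' j • ρ (g' j) e₂, ∑ i, c i • ρ (g i) e⟫_ℂ = 0 := by
  rw [sum_inner]
  refine Finset.sum_eq_zero fun j _ => ?_
  rw [inner_sum]
  refine Finset.sum_eq_zero fun i _ => ?_
  rw [inner_smul_left, inner_smul_right, inner_translate963, h i j, mul_zero, mul_zero]

/-- **SIMPLICITY, abstract core.** -/
theorem simple_of_match963 (ρ : G →* (H ≃ₗᵢ[ℂ] H)) (P : G → Prop) (V A : Submodule ℂ H)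
    [FiniteDimensional ℂ V] (hAV : A ≤ V) (e : H)
    (hmatch : ∀ e₂ ∈ V, e₂ ≠ 0 →
      ∃ (n n' : ℕ) (c : Fin n → ℂ) (g : Fin n → G) (c' : Fin n' → ℂ) (g' : Fin n' → G),
        (∀ i j, P ((g' j)⁻¹ * g i)) ∧
        ∑ i, c i • ρ (g i) e = ∑ j, c' j • ρ (g' j) e₂ ∧ ∑ i, c i • ρ (g i) e ≠ 0)
    (hcomp : ∀ e₂ ∈ V, (∀ a ∈ A, ⟪e₂, a⟫_ℂ = 0) → ∀ g : G, P g → ⟪e₂, ρ g e⟫_ℂ = 0) :
    A = V := by
  classical
  by_contra hne
  have hlt : A < V := lt_of_le_of_ne hAV hne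
  have hfd : FiniteDimensional ℂ A := Submodule.finiteDimensional_of_le hAV
  obtain ⟨e₂, he₂V, he₂0, he₂A⟩ : ∃ e₂ ∈ V, e₂ ≠ 0 ∧ ∀ a ∈ A, ⟪e₂, a⟫_ℂ = 0 := by
    obtain ⟨v, hvV, hvA⟩ := SetLike.exists_of_lt hlt
    refine ⟨v - A.starProjection v, ?_, ?_, ?_⟩
    · exact V.sub_mem hvV (hAV (Submodule.starProjection_apply_mem A v))
    · intro h0
      apply hvA
      have : v = A.starProjection v := sub_eq_zero.mp h0
      rw [this]
      exact Submodule.starProjection_apply_mem A v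
    · intro a ha
      exact Submodule.starProjection_inner_eq_zero v a ha
  obtain ⟨n, n', c, g, c', g', hP, heq, hx0⟩ := hmatch e₂ he₂V he₂0
  have h0 : ⟪∑ j, c' j • ρ (g' j) e₂, ∑ i, c i • ρ (g i) e⟫_ℂ = 0 :=
    inner_comb963 ρ e e₂ c g c' g' fun i j => hcomp e₂ he₂V he₂A _ (hP i j)
  rw [← heq] at h0
  exact hx0 (inner_self_eq_zero.mp h0)

end Fermat.Agent.LT.H963
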